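/-
S19lib / C / Eval  (helper7)   — block FF-C, part 1 (function fields only, no reduction)

The TOTAL evaluation `ev P f : K` of a function at a place (junk value `0` if `f` has no value
at `P`), built on the relational calculus `LSb.HasValueAt` (helper1), and the divided-difference
FUNCTION `dq P t f = (f - f(P)) / (t - t(P)) ∈ F`.

Main facts (all places of degree one):
* `ev` is additive / multiplicative / `K`-linear on functions regular at `P`;
* `ev_eq_zero_iff` : `ev P f = 0 ↔ f = 0 ∨ 0 < ord_P f` for `f` regular at `P`;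
* `dq` is `K`-linear in `f`; `dq P t f` is regular at `P` if `ord_P (t - t(P)) = 1`;
* `pairMult_le_ord` : if `s(P) = 0` and `(dq P t s)(P') = 0` then `div s ≥ P + P'` at `P`, `P'`
  (whether or not `P = P'`).
-/
import Fermat.Agent.LSb.Core.Value

set_option autoImplicit false
set_option linter.unusedSectionVars false

noncomputable section

namespace Fermat.Agent.S19lib.C

open AlgebraicCurve Fermat.Agent.LSb

variable {K F : Type*} [Field K] [Field F] [Algebra K F]

/-- total evaluation of a function at a place (`0` if there is no value) -/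
def ev (P : Place K F) (f : F) : K :=
  letI := Classical.propDecidable
  if h : ∃ c : K, HasValueAt P f c then h.choose else 0

variable {P : Place K F} {f g : F} {c : K}

theorem ev_eq_of_hasValueAt (h : HasValueAt P f c) : ev P f = c := by
  classical
  have hex : ∃ c : K, HasValueAt P f c := ⟨c, h⟩
  rw [ev, dif_pos hex]
  exact hex.choose_spec.unique h

/-- `f` is regular at `P` -/
def RegAt (P : Place K F) (f : F) : Prop := f ∈ P.toValuationSubring

theorem regAt_iff_ord : RegAt P f ↔ 0 ≤ P.ord f :=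
  Fermat.Agent.ProgramR.FF.mem_iff_ord_nonneg P f

theorem regAt_iff_adicValuation : RegAt P f ↔ P.adicValuation f ≤ 1 := by
  rw [regAt_iff_ord, P.adicValuation_le_one_iff]
  constructor
  · exact fun h => Or.inr h
  · rintro (rfl | h)
    · simp
    · exact h

theorem regAt_const (c : K) : RegAt P (algebraMap K F c) := P.algebraMap_mem' c

theorem regAt_zero : RegAt P (0 : F) := P.toValuationSubring.zero_mem

theorem regAt_one : RegAt P (1 : F) := P.toValuationSubring.one_mem

theorem RegAt.add (hf : RegAt P f) (hg : RegAt P g) : RegAt P (f + g) :=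
  P.toValuationSubring.add_mem _ _ hf hg

theorem RegAt.sub (hf : RegAt P f) (hg : RegAt P g) : RegAt P (f - g) :=
  sub_mem hf hg

theorem RegAt.neg (hf : RegAt P f) : RegAt P (-f) := neg_mem hf

theorem RegAt.mul (hf : RegAt P f) (hg : RegAt P g) : RegAt P (f * g) :=
  P.toValuationSubring.mul_mem _ _ hf hg

theorem RegAt.smul (a : K) (hf : RegAt P f) : RegAt P (a • f) := by
  rw [Algebra.smul_def]
  exact (regAt_const a).mul hf

theorem RegAt.pow (hf : RegAt P f) (n : ℕ) : RegAt P (f ^ n) := pow_mem hf n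

theorem regAt_sum {ι : Type*} (s : Finset ι) (φ : ι → F) (h : ∀ i ∈ s, RegAt P (φ i)) :
    RegAt P (∑ i ∈ s, φ i) := sum_mem h

theorem regAt_of_hasValueAt (h : HasValueAt P f c) : RegAt P f :=
  regAt_iff_adicValuation.2 h.le_one

/-- at a place of degree one, a regular function has its value `ev P f` -/
theorem hasValueAt_ev (hP : P.deg = 1) (hf : RegAt P f) : HasValueAt P f (ev P f) := by
  obtain ⟨c, hc⟩ := exists_hasValueAt hP (regAt_iff_adicValuation.1 hf)
  rw [ev_eq_of_hasValueAt hc]
  exact hc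

theorem ev_const (c : K) : ev P (algebraMap K F c) = c :=
  ev_eq_of_hasValueAt (hasValueAt_const c)

@[simp] theorem ev_zero : ev P (0 : F) = 0 := ev_eq_of_hasValueAt hasValueAt_zero

@[simp] theorem ev_one : ev P (1 : F) = 1 := ev_eq_of_hasValueAt hasValueAt_one

theorem ev_add (hP : P.deg = 1) (hf : RegAt P f) (hg : RegAt P g) :
    ev P (f + g) = ev P f + ev P g :=
  ev_eq_of_hasValueAt ((hasValueAt_ev hP hf).add (hasValueAt_ev hP hg))

theorem ev_sub (hP : P.deg = 1) (hf : RegAt P f) (hg : RegAt P g) :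
    ev P (f - g) = ev P f - ev P g :=
  ev_eq_of_hasValueAt ((hasValueAt_ev hP hf).sub (hasValueAt_ev hP hg))

theorem ev_neg (hP : P.deg = 1) (hf : RegAt P f) : ev P (-f) = -ev P f :=
  ev_eq_of_hasValueAt (hasValueAt_ev hP hf).neg

theorem ev_mul (hP : P.deg = 1) (hf : RegAt P f) (hg : RegAt P g) :
    ev P (f * g) = ev P f * ev P g :=
  ev_eq_of_hasValueAt ((hasValueAt_ev hP hf).mul (hasValueAt_ev hP hg))

theorem ev_smul (hP : P.deg = 1) (a : K) (hf : RegAt P f) : ev P (a • f) = a * ev P f :=
  ev_eq_of_hasValueAt ((hasValueAt_ev hP hf).smul a)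

theorem ev_pow (hP : P.deg = 1) (hf : RegAt P f) (n : ℕ) : ev P (f ^ n) = ev P f ^ n :=
  ev_eq_of_hasValueAt ((hasValueAt_ev hP hf).pow n)

theorem ev_sum (hP : P.deg = 1) {ι : Type*} (s : Finset ι) (φ : ι → F)
    (h : ∀ i ∈ s, RegAt P (φ i)) : ev P (∑ i ∈ s, φ i) = ∑ i ∈ s, ev P (φ i) := by
  classical
  induction s using Finset.induction_on with
  | empty => simp
  | insert a s ha ih =>
    rw [Finset.sum_insert ha, Finset.sum_insert ha,
      ev_add hP (h a (Finset.mem_insert_self a s))
        (regAt_sum s φ fun i hi => h i (Finset.mem_insert_of_mem hi)),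
      ih fun i hi => h i (Finset.mem_insert_of_mem hi)]

/-- `f` vanishes at `P` -/
def VanAt (P : Place K F) (f : F) : Prop := f = 0 ∨ 0 < P.ord f

theorem vanAt_iff_hasValueAt_zero : VanAt P f ↔ HasValueAt P f 0 := hasValueAt_zero_iff.symm

theorem VanAt.regAt (h : VanAt P f) : RegAt P f := by
  rw [regAt_iff_ord]
  rcases h with rfl | h
  · simp
  · exact h.le

theorem ev_eq_zero_iff (hP : P.deg = 1) (hf : RegAt P f) : ev P f = 0 ↔ VanAt P f := by
  constructor
  · intro h
    have := hasValueAt_ev hP hf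
    rw [h] at this
    exact vanAt_iff_hasValueAt_zero.2 this
  · intro h
    exact ev_eq_of_hasValueAt (vanAt_iff_hasValueAt_zero.1 h)

/-- `f - f(P)` vanishes at `P` -/
theorem vanAt_sub_ev (hP : P.deg = 1) (hf : RegAt P f) :
    VanAt P (f - algebraMap K F (ev P f)) := by
  have := hasValueAt_ev hP hf
  rw [hasValueAt_iff] at this
  rcases this with h | h
  · left; exact sub_eq_zero.2 h
  · right; exact h

theorem ev_ne_zero_iff_ord (hP : P.deg = 1) (hf : RegAt P f) (hf0 : f ≠ 0) :
    ev P f ≠ 0 ↔ P.ord f = 0 := by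
  rw [Ne, ev_eq_zero_iff hP hf, VanAt, or_iff_right hf0]
  have := regAt_iff_ord.1 hf
  omega

/-! ### the divided-difference function -/

/-- `(f - f(P)) / (t - t(P))` -/
def dq (P : Place K F) (t f : F) : F :=
  (f - algebraMap K F (ev P f)) / (t - algebraMap K F (ev P t))

variable {t : F}

theorem dq_add (hP : P.deg = 1) (hf : RegAt P f) (hg : RegAt P g) :
    dq P t (f + g) = dq P t f + dq P t g := by
  rw [dq, dq, dq, ev_add hP hf hg, map_add, ← add_div]
  congr 1
  ring

theorem dq_smul (hP : P.deg = 1) (a : K) (hf : RegAt P f) :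
    dq P t (a • f) = a • dq P t f := by
  rw [dq, dq, ev_smul hP a hf, map_mul, Algebra.smul_def, Algebra.smul_def, ← mul_sub, mul_div_assoc]

theorem dq_zero : dq P t (0 : F) = 0 := by
  rw [dq, ev_zero, map_zero, sub_zero, zero_div]

theorem dq_sum (hP : P.deg = 1) {ι : Type*} (s : Finset ι) (φ : ι → F)
    (h : ∀ i ∈ s, RegAt P (φ i)) : dq P t (∑ i ∈ s, φ i) = ∑ i ∈ s, dq P t (φ i) := by
  classical
  induction s using Finset.induction_on with
  | empty => simp [dq_zero]
  | insert a s ha ih =>
    rw [Finset.sum_insert ha, Finset.sum_insert ha,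
      dq_add hP (h a (Finset.mem_insert_self a s))
        (regAt_sum s φ fun i hi => h i (Finset.mem_insert_of_mem hi)),
      ih fun i hi => h i (Finset.mem_insert_of_mem hi)]

/-- `(t - t(P)) * dq P t f = f - f(P)` -/
theorem mul_dq (ht : t - algebraMap K F (ev P t) ≠ 0) :
    (t - algebraMap K F (ev P t)) * dq P t f = f - algebraMap K F (ev P f) := by
  rw [dq, mul_div_cancel₀ _ ht]

/-- if `f(P) = 0` then `f = (t - t(P)) * dq P t f` -/
theorem eq_mul_dq (ht : t - algebraMap K F (ev P t) ≠ 0) (hf0 : ev P f = 0) :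
    f = (t - algebraMap K F (ev P t)) * dq P t f := by
  rw [mul_dq ht, hf0, map_zero, sub_zero]

/-- `dq P t f` is regular at `P` when `t - t(P)` is a uniformizer at `P` -/
theorem regAt_dq (hP : P.deg = 1) (hf : RegAt P f) (ht : P.ord (t - algebraMap K F (ev P t)) = 1) :
    RegAt P (dq P t f) := by
  have ht0 : t - algebraMap K F (ev P t) ≠ 0 := by
    intro h0
    rw [h0, P.ord_zero] at ht
    exact zero_ne_one ht
  rcases vanAt_sub_ev hP hf with h | h
  · rw [dq, h, zero_div]
    exact regAt_zero
  · rw [regAt_iff_ord, dq, div_eq_mul_inv, P.ord_mul _ (inv_ne_zero ht0), P.ord_inv, ht]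
    · omega
    · intro h0
      rw [h0, P.ord_zero] at h
      exact lt_irrefl _ h

/-- `dq P t f` is regular at any other place `P'` where `f`, `t` are regular and
`t(P') ≠ t(P)` -/
theorem regAt_dq_of_ne {P' : Place K F} (hP' : P'.deg = 1) (hf : RegAt P' f) (ht : RegAt P' t)
    (hne : ev P' t ≠ ev P t) : RegAt P' (dq P t f) := by
  have h1 : RegAt P' (f - algebraMap K F (ev P f)) := hf.sub (regAt_const _)
  have h2 : HasValueAt P' (t - algebraMap K F (ev P t)) (ev P' t - ev P t) :=
    (hasValueAt_ev hP' ht).sub (hasValueAt_const _)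
  have h3 := h2.inv (sub_ne_zero.2 hne)
  rw [dq, div_eq_mul_inv]
  exact h1.mul (regAt_of_hasValueAt h3)

/-- the number of times a place occurs in the pair `P, P'` -/
def pairMult (P P' Q : Place K F) : ℤ :=
  letI := Classical.propDecidable
  (if Q = P then 1 else 0) + (if Q = P' then 1 else 0)

/-- **vanishing on a pair** (possibly coincident): if `s(P) = 0` and `(dq P t s)(P') = 0`,
`t - t(P)` a uniformizer at `P` and regular at `P'`, then `ord_Q s ≥ [Q = P] + [Q = P']`
for `Q ∈ {P, P'}`. -/
theorem pairMult_le_ord {P' : Place K F} {s : F} (hP : P.deg = 1) (hP' : P'.deg = 1)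
    (hs0 : s ≠ 0) (hsP : RegAt P s) (ht : P.ord (t - algebraMap K F (ev P t)) = 1)
    (htP' : RegAt P' t) (h1 : ev P s = 0) (hdq : RegAt P' (dq P t s))
    (h2 : ev P' (dq P t s) = 0) {Q : Place K F} (hQ : Q = P ∨ Q = P') :
    pairMult P P' Q ≤ Q.ord s := by
  classical
  have ht0 : t - algebraMap K F (ev P t) ≠ 0 := by
    intro h0
    rw [h0, P.ord_zero] at ht
    exact zero_ne_one ht
  have hfac := eq_mul_dq (f := s) ht0 h1
  have hdq0 : dq P t s ≠ 0 := by
    intro h0
    rw [h0, mul_zero] at hfac
    exact hs0 hfac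
  have hordP' : 0 < P'.ord (dq P t s) := by
    rcases (ev_eq_zero_iff hP' hdq).1 h2 with h | h
    · exact absurd h hdq0
    · exact h
  have hordQ : ∀ Q' : Place K F, Q'.ord s
      = Q'.ord (t - algebraMap K F (ev P t)) + Q'.ord (dq P t s) := by
    intro Q'
    conv_lhs => rw [hfac]
    exact Q'.ord_mul ht0 hdq0
  have htP'reg : 0 ≤ P'.ord (t - algebraMap K F (ev P t)) :=
    regAt_iff_ord.1 (htP'.sub (regAt_const _))
  by_cases hPP' : P' = P
  · subst hPP'
    have hQ' : Q = P' := by rcases hQ with h | h <;> exact h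
    subst hQ'
    rw [pairMult, if_pos rfl, hordQ, ht]
    omega
  · rcases hQ with rfl | rfl
    · rw [pairMult, if_pos rfl, if_neg (fun h => hPP' h.symm), add_zero]
      have := (ev_eq_zero_iff hP hsP).1 h1
      rcases this with h | h
      · exact absurd h hs0
      · omega
    · rw [pairMult, if_neg hPP', if_pos rfl, zero_add, hordQ]
      omega

end Fermat.Agent.S19lib.C
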