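/-
S19lib / C / Cross  (helper7)   — block FF-C, part 0 (pure linear algebra)

The "generalised cross product" of an `m × (m+1)` matrix `Λ` over a commutative ring:
`cross Λ k = (-1)^k · det (Λ with column k removed)`.

* `dotProduct_cross` : `w ⬝ cross Λ = det [w ; Λ]`;
* `mulVec_cross`     : `Λ *ᵥ cross Λ = 0`;
* `cross_map`        : compatibility with ring homomorphisms;
* `cross_ne_zero`    : over a field, `cross Λ ≠ 0` if the rows of `Λ` are linearly independent;
* `eq_smul_cross`    : over a field, the kernel of `Λ` is the line spanned by `cross Λ`.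
-/
import Mathlib

set_option autoImplicit false
set_option linter.unusedSectionVars false

noncomputable section

namespace Fermat.Agent.S19lib.C

open Matrix

variable {R : Type*} [CommRing R] {m : ℕ}

/-- the signed maximal minors of an `m × (m+1)` matrix -/
def cross (Λ : Matrix (Fin m) (Fin (m + 1)) R) : Fin (m + 1) → R :=
  fun k => (-1) ^ (k : ℕ) * (Λ.submatrix id k.succAbove).det

/-- the `(m+1) × (m+1)` matrix with first row `w` and the rows of `Λ` below it -/
def consRow (w : Fin (m + 1) → R) (Λ : Matrix (Fin m) (Fin (m + 1)) R) :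
    Matrix (Fin (m + 1)) (Fin (m + 1)) R :=
  Matrix.of (Fin.cons w Λ : Fin (m + 1) → Fin (m + 1) → R)

@[simp] theorem consRow_zero (w : Fin (m + 1) → R) (Λ : Matrix (Fin m) (Fin (m + 1)) R)
    (k : Fin (m + 1)) : consRow w Λ 0 k = w k := rfl

@[simp] theorem consRow_succ (w : Fin (m + 1) → R) (Λ : Matrix (Fin m) (Fin (m + 1)) R)
    (a : Fin m) (k : Fin (m + 1)) : consRow w Λ a.succ k = Λ a k := rfl

theorem dotProduct_cross (w : Fin (m + 1) → R) (Λ : Matrix (Fin m) (Fin (m + 1)) R) :
    w ⬝ᵥ cross Λ = (consRow w Λ).det := by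
  rw [Matrix.det_succ_row_zero, dotProduct]
  refine Finset.sum_congr rfl fun k _ => ?_
  have : (consRow w Λ).submatrix Fin.succ k.succAbove = Λ.submatrix id k.succAbove := by
    ext a b
    rfl
  rw [this, consRow_zero, cross]
  ring

theorem mulVec_cross (Λ : Matrix (Fin m) (Fin (m + 1)) R) : Λ *ᵥ cross Λ = 0 := by
  ext a
  rw [Matrix.mulVec, Pi.zero_apply]
  change (Λ a) ⬝ᵥ cross Λ = 0
  rw [dotProduct_cross]
  exact Matrix.det_zero_of_row_eq (i := 0) (j := a.succ) (Fin.succ_ne_zero a).symm
    (by ext k; rfl)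

theorem cross_map {S : Type*} [CommRing S] (f : R →+* S)
    (Λ : Matrix (Fin m) (Fin (m + 1)) R) (k : Fin (m + 1)) :
    cross (Λ.map f) k = f (cross Λ k) := by
  rw [cross, cross, map_mul, map_pow, map_neg, map_one, RingHom.map_det]
  rfl

theorem consRow_map {S : Type*} [CommRing S] (f : R →+* S) (w : Fin (m + 1) → R)
    (Λ : Matrix (Fin m) (Fin (m + 1)) R) :
    (consRow w Λ).map f = consRow (fun k => f (w k)) (Λ.map f) := by
  ext a k
  refine Fin.cases ?_ (fun a' => ?_) a <;> rfl

section Field

variable {K : Type*} [Field K]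

/-- a matrix with linearly independent rows can be completed to an invertible square matrix -/
theorem exists_consRow_det_ne_zero {Λ : Matrix (Fin m) (Fin (m + 1)) K}
    (h : LinearIndependent K (fun a => Λ a)) : ∃ w : Fin (m + 1) → K, (consRow w Λ).det ≠ 0 := by
  have hlt : Submodule.span K (Set.range fun a => Λ a) ≠ ⊤ := by
    intro htop
    have h1 : Module.finrank K (Submodule.span K (Set.range fun a => Λ a)) = m := by
      rw [finrank_span_eq_card h, Fintype.card_fin]
    rw [htop, finrank_top, Module.finrank_fin_fun] at h1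
    omega
  obtain ⟨w, hw⟩ : ∃ w : Fin (m + 1) → K, w ∉ Submodule.span K (Set.range fun a => Λ a) := by
    by_contra hall
    push Not at hall
    exact hlt (eq_top_iff.2 fun x _ => hall x)
  refine ⟨w, ?_⟩
  have hli : LinearIndependent K (fun a : Fin (m + 1) => (consRow w Λ) a) := by
    have : (fun a : Fin (m + 1) => (consRow w Λ) a) = Fin.cons w (fun a => Λ a) := by
      funext a
      refine Fin.cases ?_ (fun a' => ?_) a <;> rfl
    rw [this]
    exact (linearIndependent_finCons).2 ⟨h, hw⟩
  have hu := (Matrix.linearIndependent_rows_iff_isUnit (A := consRow w Λ)).1 hli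
  exact ((Matrix.isUnit_iff_isUnit_det _).1 hu).ne_zero

/-- over a field, the cross product of a matrix with linearly independent rows is nonzero -/
theorem cross_ne_zero {Λ : Matrix (Fin m) (Fin (m + 1)) K}
    (h : LinearIndependent K (fun a => Λ a)) : cross Λ ≠ 0 := by
  intro h0
  obtain ⟨w, hw⟩ := exists_consRow_det_ne_zero h
  apply hw
  rw [← dotProduct_cross, h0, dotProduct_zero]

theorem consRow_mulVec (w : Fin (m + 1) → K) (Λ : Matrix (Fin m) (Fin (m + 1)) K)
    {c : Fin (m + 1) → K} (hc : Λ *ᵥ c = 0) :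
    consRow w Λ *ᵥ c = Pi.single 0 (w ⬝ᵥ c) := by
  funext a
  refine Fin.cases ?_ (fun a' => ?_) a
  · rw [Pi.single_eq_same]
    rfl
  · rw [Pi.single_eq_of_ne (Fin.succ_ne_zero a')]
    have := congrFun hc a'
    rw [Pi.zero_apply] at this
    rw [← this]
    rfl

/-- over a field, the kernel of a matrix with linearly independent rows is spanned by the
cross product -/
theorem eq_smul_cross {Λ : Matrix (Fin m) (Fin (m + 1)) K}
    (h : LinearIndependent K (fun a => Λ a)) {c : Fin (m + 1) → K} (hc : Λ *ᵥ c = 0) :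
    ∃ a : K, c = a • cross Λ := by
  obtain ⟨w, hw⟩ := exists_consRow_det_ne_zero h
  refine ⟨(w ⬝ᵥ c) / (consRow w Λ).det, ?_⟩
  have hinj : Function.Injective (consRow w Λ).mulVec :=
    Matrix.mulVec_injective_iff_isUnit.2 ((Matrix.isUnit_iff_isUnit_det _).2 (Ne.isUnit hw))
  apply hinj
  rw [consRow_mulVec w Λ hc, Matrix.mulVec_smul, consRow_mulVec w Λ (mulVec_cross Λ),
    dotProduct_cross]
  funext a
  by_cases ha : a = 0
  · subst ha
    rw [Pi.single_eq_same, Pi.smul_apply, Pi.single_eq_same, smul_eq_mul, div_mul_cancel₀ _ hw]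
  · rw [Pi.single_eq_of_ne ha, Pi.smul_apply, Pi.single_eq_of_ne ha, smul_zero]

end Field

end Fermat.Agent.S19lib.C
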