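/-
S19lib / C / Disc  (helper7)   — block FF-C, part 2 (local API on a residue disc)

`D : RedDatum A F Fk`, `Qb` a place of `Fk`.  The *disc* over `Qb` is `{P | D.r P = Qb}`.
`DiscReg D Qb f` : `f ∈ O` and `f` is regular at every place of the disc.

* `DiscReg.ord_le` : conservation on a disc, `ord_P y ≤ ord_Qb ȳ` for `P` in the disc;
* `DiscReg.ev_mem`, `DiscReg.residue_ev` : **(L1)** `f(P) ∈ A` and `res (f(P)) = f̄(Qb)`;
* `IsParamAt` : `t` disc-regular with `t̄ - t̄(Qb)` a uniformizer at `Qb`; then `t - t(P)` is a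
  uniformizer at `P` without other zeros in the disc, `t` is injective on the disc;
* `DiscReg.dq` : `dq P t f` is disc-regular with reduction `dq Qb t̄ f̄`.
-/
import Fermat.Agent.S19lib.C.Eval
import Fermat.Agent.S18lib.Setup.DatumFibre

set_option autoImplicit false
set_option linter.unusedSectionVars false

noncomputable section

namespace Fermat.Agent.S19lib.C

open AlgebraicCurve Fermat.Agent.LSb Fermat.Agent.S18lib

/-! ### generic facts on push-forwards -/

section Push

variable {ι κ : Type*}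

/-- a term of the fibre is bounded by the push-forward if the divisor is effective on the fibre -/
theorem le_mapDomain_of_fibre_nonneg (r : ι → κ) (E : ι →₀ ℤ) (Q : κ)
    (h : ∀ P, r P = Q → 0 ≤ E P) {P0 : ι} (hP0 : r P0 = Q) :
    E P0 ≤ Finsupp.mapDomain r E Q := by
  classical
  rw [mapDomain_apply_eq_sum]
  have hnn : ∀ P' ∈ E.support, 0 ≤ (if r P' = Q then E P' else 0) := fun P' _ => by
    split_ifs with hr
    · exact h P' hr
    · exact le_rfl
  by_cases hP : P0 ∈ E.support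
  · have := Finset.single_le_sum hnn hP
    rwa [if_pos hP0] at this
  · rw [Finsupp.notMem_support_iff.1 hP]
    exact Finset.sum_nonneg hnn

/-- two distinct terms of the fibre -/
theorem add_le_mapDomain_of_fibre_nonneg (r : ι → κ) (E : ι →₀ ℤ) (Q : κ)
    (h : ∀ P, r P = Q → 0 ≤ E P) {P0 P1 : ι} (hP0 : r P0 = Q) (hP1 : r P1 = Q) (hne : P0 ≠ P1) :
    E P0 + E P1 ≤ Finsupp.mapDomain r E Q := by
  classical
  -- remove `P0` and apply the one-point bound to the rest
  have hdec : E = Finsupp.single P0 (E P0) + E.erase P0 := (Finsupp.single_add_erase P0 E).symm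
  have h1 : Finsupp.mapDomain r E Q = E P0 + Finsupp.mapDomain r (E.erase P0) Q := by
    conv_lhs => rw [hdec]
    rw [Finsupp.mapDomain_add, Finsupp.add_apply, Finsupp.mapDomain_single, hP0,
      Finsupp.single_eq_same]
  have h2 : E P1 ≤ Finsupp.mapDomain r (E.erase P0) Q := by
    have := le_mapDomain_of_fibre_nonneg r (E.erase P0) Q (fun P hP => by
      by_cases hPP : P = P0
      · rw [hPP, Finsupp.erase_same]
      · rw [Finsupp.erase_ne hPP]; exact h P hP) hP1
    rwa [Finsupp.erase_ne (Ne.symm hne)] at this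
  rw [h1]
  omega

end Push

variable {L : Type*} [Field L] {A : ValuationSubring L}
variable {F : Type*} [Field F] [Algebra L F]
variable {Fk : Type*} [Field Fk] [Algebra (IsLocalRing.ResidueField A) Fk]
variable [HasPrincipalDivisors L F] [HasPrincipalDivisors (IsLocalRing.ResidueField A) Fk]

local notation "k" => IsLocalRing.ResidueField A

/-- `f ∈ O` is regular at every place of the disc over `Qb` -/
def DiscReg (D : RedDatum A F Fk) (Qb : Place k Fk) (f : F) : Prop :=
  f ∈ D.O ∧ ∀ P : Place L F, D.r P = Qb → RegAt P f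

namespace DiscReg

variable {D : RedDatum A F Fk} {Qb : Place (IsLocalRing.ResidueField A) Fk} {f g : F}

theorem const (a : A) : DiscReg D Qb (algebraMap L F (a : L)) :=
  ⟨D.algebraMap_mem a, fun _ _ => regAt_const _⟩

theorem zero : DiscReg D Qb (0 : F) := ⟨D.O.zero_mem, fun _ _ => regAt_zero⟩

theorem one : DiscReg D Qb (1 : F) := ⟨D.O.one_mem, fun _ _ => regAt_one⟩

theorem add (hf : DiscReg D Qb f) (hg : DiscReg D Qb g) : DiscReg D Qb (f + g) :=
  ⟨D.O.add_mem _ _ hf.1 hg.1, fun P hP => (hf.2 P hP).add (hg.2 P hP)⟩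

theorem sub (hf : DiscReg D Qb f) (hg : DiscReg D Qb g) : DiscReg D Qb (f - g) :=
  ⟨D.O.sub_mem hf.1 hg.1, fun P hP => (hf.2 P hP).sub (hg.2 P hP)⟩

theorem neg (hf : DiscReg D Qb f) : DiscReg D Qb (-f) :=
  ⟨D.O.neg_mem _ hf.1, fun P hP => (hf.2 P hP).neg⟩

theorem mul (hf : DiscReg D Qb f) (hg : DiscReg D Qb g) : DiscReg D Qb (f * g) :=
  ⟨D.O.mul_mem _ _ hf.1 hg.1, fun P hP => (hf.2 P hP).mul (hg.2 P hP)⟩

theorem smul (a : A) (hf : DiscReg D Qb f) : DiscReg D Qb ((a : L) • f) := by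
  rw [Algebra.smul_def]
  exact (const a).mul hf

theorem sum {ι : Type*} (s : Finset ι) (φ : ι → F) (h : ∀ i ∈ s, DiscReg D Qb (φ i)) :
    DiscReg D Qb (∑ i ∈ s, φ i) :=
  ⟨D.O.sum_mem fun i hi => (h i hi).1, fun P hP => regAt_sum s φ fun i hi => (h i hi).2 P hP⟩

/-- **conservation on a disc**: `ord_P y ≤ ord_Qb ȳ` -/
theorem ord_le (hf : DiscReg D Qb f) (hred : D.redF f ≠ 0) {P : Place L F} (hP : D.r P = Qb) :
    P.ord f ≤ Qb.ord (D.redF f) := by
  have h1 := D.mapDomain_divOf hred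
  have h2 := le_mapDomain_of_fibre_nonneg D.r (divOf (K := L) f) Qb (fun P' hP' => by
    rw [divOf_apply']; exact regAt_iff_ord.1 (hf.2 P' hP')) hP
  rwa [h1, divOf_apply', divOf_apply'] at h2

/-- two distinct points of the disc -/
theorem ord_add_ord_le (hf : DiscReg D Qb f) (hred : D.redF f ≠ 0) {P P' : Place L F}
    (hP : D.r P = Qb) (hP' : D.r P' = Qb) (hne : P ≠ P') :
    P.ord f + P'.ord f ≤ Qb.ord (D.redF f) := by
  have h1 := D.mapDomain_divOf hred
  have h2 := add_le_mapDomain_of_fibre_nonneg D.r (divOf (K := L) f) Qb (fun P' hP' => by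
    rw [divOf_apply']; exact regAt_iff_ord.1 (hf.2 P' hP')) hP hP' hne
  rwa [h1, divOf_apply', divOf_apply', divOf_apply'] at h2

/-- the reduction of a disc-regular function is regular at `Qb` -/
theorem regAt_redF (hf : DiscReg D Qb f) {P : Place L F} (hP : D.r P = Qb) :
    RegAt Qb (D.redF f) := by
  by_cases hred : D.redF f = 0
  · rw [hred]; exact regAt_zero
  · rw [regAt_iff_ord]
    exact le_trans (regAt_iff_ord.1 (hf.2 P hP)) (hf.ord_le hred hP)

/-- **(L1), integrality**: the value of a disc-regular function at a point of the disc lies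
in `A` -/
theorem ev_mem (hf : DiscReg D Qb f) {P : Place L F} (hP : D.r P = Qb) (hdeg : P.deg = 1) :
    ev P f ∈ A := by
  by_contra hc
  have hc0 : ev P f ≠ 0 := fun h0 => hc (h0 ▸ A.zero_mem)
  have hcinv : (ev P f)⁻¹ ∈ A := (A.mem_or_inv_mem _).resolve_left hc
  -- `c⁻¹` is not a unit of `A`
  have hm : (⟨(ev P f)⁻¹, hcinv⟩ : A) ∈ IsLocalRing.maximalIdeal A := by
    rw [A.valuation_lt_one_iff]
    change A.valuation (ev P f)⁻¹ < 1
    have h1 : ¬ A.valuation (ev P f) ≤ 1 := fun h => hc ((A.valuation_le_one_iff _).1 h)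
    rw [map_inv₀]
    exact inv_lt_one_of_one_lt₀ (not_le.1 h1)
  set a : A := ⟨(ev P f)⁻¹, hcinv⟩ with ha
  -- `y = c⁻¹ f - 1`
  have hy : DiscReg D Qb (algebraMap L F (a : L) * f - 1) := ((const a).mul hf).sub one
  have hred : D.redF (algebraMap L F (a : L) * f - 1) = -1 := by
    rw [D.redF_sub (D.smul_mem a hf.1) D.O.one_mem, D.redF_smul a hf.1, D.redF_one,
      (IsLocalRing.residue_eq_zero_iff a).2 hm, zero_smul, zero_sub]
  have hred0 : D.redF (algebraMap L F (a : L) * f - 1) ≠ 0 := by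
    rw [hred]; exact neg_ne_zero.2 one_ne_zero
  have hy0 : algebraMap L F (a : L) * f - 1 ≠ 0 := by
    intro h0
    rw [h0, D.redF_zero] at hred0
    exact hred0 rfl
  have hev : ev P (algebraMap L F (a : L) * f - 1) = 0 := by
    rw [ev_sub hdeg ((regAt_const _).mul (hf.2 P hP)) regAt_one,
      ev_mul hdeg (regAt_const _) (hf.2 P hP), ev_const, ev_one, ha]
    change (ev P f)⁻¹ * ev P f - 1 = 0
    rw [inv_mul_cancel₀ hc0, sub_self]
  have hpos : 0 < P.ord (algebraMap L F (a : L) * f - 1) := by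
    rcases (ev_eq_zero_iff hdeg (hy.2 P hP)).1 hev with h | h
    · exact absurd h hy0
    · exact h
  have hle := hy.ord_le hred0 hP
  rw [hred, Fermat.Agent.S18lib.Cech.ord_neg, Qb.ord_one] at hle
  omega

/-- **(L1), compatibility**: `res (f(P)) = f̄(Qb)` -/
theorem hasValueAt_redF (hf : DiscReg D Qb f) {P : Place L F} (hP : D.r P = Qb)
    (hdeg : P.deg = 1) :
    HasValueAt Qb (D.redF f) (IsLocalRing.residue A ⟨ev P f, hf.ev_mem hP hdeg⟩) := by
  set a : A := ⟨ev P f, hf.ev_mem hP hdeg⟩ with ha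
  have hy : DiscReg D Qb (f - algebraMap L F (a : L)) := hf.sub (const a)
  have hred : D.redF (f - algebraMap L F (a : L))
      = D.redF f - algebraMap k Fk (IsLocalRing.residue A a) := by
    rw [D.redF_sub hf.1 (D.algebraMap_mem a), D.redF_algebraMap]
  rw [hasValueAt_iff]
  by_cases hred0 : D.redF (f - algebraMap L F (a : L)) = 0
  · left
    rw [hred] at hred0
    exact sub_eq_zero.1 hred0
  · right
    have hy0 : f - algebraMap L F (a : L) ≠ 0 := by
      intro h0
      rw [h0, D.redF_zero] at hred0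
      exact hred0 rfl
    have hpos : 0 < P.ord (f - algebraMap L F (a : L)) := by
      rcases vanAt_sub_ev hdeg (hf.2 P hP) with h | h
      · exact absurd h hy0
      · exact h
    have hle := hy.ord_le hred0 hP
    rw [hred] at hle
    omega

theorem residue_ev (hf : DiscReg D Qb f) {P : Place L F} (hP : D.r P = Qb) (hdeg : P.deg = 1) :
    IsLocalRing.residue A ⟨ev P f, hf.ev_mem hP hdeg⟩ = ev Qb (D.redF f) :=
  (ev_eq_of_hasValueAt (hf.hasValueAt_redF hP hdeg)).symm

end DiscReg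

/-- `t` is a parameter on the disc over `Qb`: disc-regular, and `t̄ - t̄(Qb)` is a uniformizer
at `Qb` -/
def IsParamAt (D : RedDatum A F Fk) (Qb : Place k Fk) (t : F) : Prop :=
  DiscReg D Qb t ∧ Qb.ord (D.redF t - algebraMap k Fk (ev Qb (D.redF t))) = 1

namespace IsParamAt

variable {D : RedDatum A F Fk} {Qb : Place (IsLocalRing.ResidueField A) Fk} {t f : F}

/-- `t - t(P)` is disc-regular with reduction `t̄ - t̄(Qb)` -/
theorem redF_sub_ev (ht : IsParamAt D Qb t) {P : Place L F} (hP : D.r P = Qb) (hdeg : P.deg = 1) :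
    D.redF (t - algebraMap L F (ev P t))
      = D.redF t - algebraMap k Fk (ev Qb (D.redF t)) := by
  have h1 := ht.1.ev_mem hP hdeg
  have h2 := D.redF_sub ht.1.1 (D.algebraMap_mem ⟨ev P t, h1⟩)
  rw [D.redF_algebraMap, ht.1.residue_ev hP hdeg] at h2
  exact h2

theorem discReg_sub_ev (ht : IsParamAt D Qb t) {P : Place L F} (hP : D.r P = Qb)
    (hdeg : P.deg = 1) : DiscReg D Qb (t - algebraMap L F (ev P t)) :=
  ht.1.sub (DiscReg.const ⟨ev P t, ht.1.ev_mem hP hdeg⟩)

theorem redF_sub_ev_ne_zero (ht : IsParamAt D Qb t) {P : Place L F} (hP : D.r P = Qb)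
    (hdeg : P.deg = 1) : D.redF (t - algebraMap L F (ev P t)) ≠ 0 := by
  rw [ht.redF_sub_ev hP hdeg]
  intro h0
  have := ht.2
  rw [h0, Qb.ord_zero] at this
  exact zero_ne_one this

theorem sub_ev_ne_zero (ht : IsParamAt D Qb t) {P : Place L F} (hP : D.r P = Qb)
    (hdeg : P.deg = 1) : t - algebraMap L F (ev P t) ≠ 0 := by
  intro h0
  have := ht.redF_sub_ev_ne_zero hP hdeg
  rw [h0, D.redF_zero] at this
  exact this rfl

/-- `t - t(P)` is a uniformizer at `P` -/
theorem ord_sub_ev (ht : IsParamAt D Qb t) {P : Place L F} (hP : D.r P = Qb) (hdeg : P.deg = 1) :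
    P.ord (t - algebraMap L F (ev P t)) = 1 := by
  have hle := (ht.discReg_sub_ev hP hdeg).ord_le (ht.redF_sub_ev_ne_zero hP hdeg) hP
  rw [ht.redF_sub_ev hP hdeg, ht.2] at hle
  have hpos : 0 < P.ord (t - algebraMap L F (ev P t)) := by
    rcases vanAt_sub_ev hdeg (ht.1.2 P hP) with h | h
    · exact absurd h (ht.sub_ev_ne_zero hP hdeg)
    · exact h
  omega

/-- `t - t(P)` has no other zero in the disc -/
theorem ord_sub_ev_of_ne (ht : IsParamAt D Qb t) {P P' : Place L F} (hP : D.r P = Qb)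
    (hP' : D.r P' = Qb) (hdeg : P.deg = 1) (hne : P ≠ P') :
    P'.ord (t - algebraMap L F (ev P t)) = 0 := by
  have hle := (ht.discReg_sub_ev hP hdeg).ord_add_ord_le (ht.redF_sub_ev_ne_zero hP hdeg)
    hP hP' hne
  rw [ht.redF_sub_ev hP hdeg, ht.2, ht.ord_sub_ev hP hdeg] at hle
  have := regAt_iff_ord.1 ((ht.discReg_sub_ev hP hdeg).2 P' hP')
  omega

/-- a parameter is injective on the disc -/
theorem ev_injOn (ht : IsParamAt D Qb t) {P P' : Place L F} (hP : D.r P = Qb)
    (hP' : D.r P' = Qb) (hdeg : P.deg = 1) (hdeg' : P'.deg = 1) (h : ev P t = ev P' t) :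
    P = P' := by
  by_contra hne
  have h0 := ht.ord_sub_ev_of_ne hP hP' hdeg hne
  have h1 := ht.ord_sub_ev hP' hdeg'
  rw [h] at h0
  omega

/-- `(t - t(P))⁻¹ ∈ O` -/
theorem inv_sub_ev_mem (ht : IsParamAt D Qb t) {P : Place L F} (hP : D.r P = Qb)
    (hdeg : P.deg = 1) : (t - algebraMap L F (ev P t))⁻¹ ∈ D.O :=
  D.inv_mem_of_redF_ne_zero (ht.redF_sub_ev_ne_zero hP hdeg)

end IsParamAt

namespace DiscReg

variable {D : RedDatum A F Fk} {Qb : Place (IsLocalRing.ResidueField A) Fk} {t f : F}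

/-- the divided-difference function of a disc-regular function is disc-regular -/
theorem dq (hf : DiscReg D Qb f) (ht : IsParamAt D Qb t) (hdegall : ∀ P : Place L F, P.deg = 1)
    {P : Place L F} (hP : D.r P = Qb) : DiscReg D Qb (dq P t f) := by
  have hdeg := hdegall P
  refine ⟨?_, fun P' hP' => ?_⟩
  · rw [C.dq, div_eq_mul_inv]
    exact D.O.mul_mem _ _ (hf.sub (const ⟨ev P f, hf.ev_mem hP hdeg⟩)).1
      (ht.inv_sub_ev_mem hP hdeg)
  · by_cases hne : P = P'
    · subst hne
      exact regAt_dq hdeg (hf.2 P hP) (ht.ord_sub_ev hP hdeg)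
    · refine regAt_dq_of_ne (hdegall P') (hf.2 P' hP') (ht.1.2 P' hP') fun h => hne ?_
      exact ht.ev_injOn hP hP' hdeg (hdegall P') h.symm

/-- the reduction of the divided-difference function -/
theorem redF_dq (hf : DiscReg D Qb f) (ht : IsParamAt D Qb t) {P : Place L F} (hP : D.r P = Qb)
    (hdeg : P.deg = 1) : D.redF (C.dq P t f) = C.dq Qb (D.redF t) (D.redF f) := by
  have h1 : D.redF (f - algebraMap L F (ev P f))
      = D.redF f - algebraMap k Fk (ev Qb (D.redF f)) := by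
    have h2 := D.redF_sub hf.1 (D.algebraMap_mem ⟨ev P f, hf.ev_mem hP hdeg⟩)
    rw [D.redF_algebraMap, hf.residue_ev hP hdeg] at h2
    exact h2
  rw [C.dq, C.dq, div_eq_mul_inv,
    D.redF_mul (hf.sub (const ⟨ev P f, hf.ev_mem hP hdeg⟩)).1 (ht.inv_sub_ev_mem hP hdeg),
    D.redF_inv (ht.redF_sub_ev_ne_zero hP hdeg), h1, ht.redF_sub_ev hP hdeg, div_eq_mul_inv]

end DiscReg

end Fermat.Agent.S19lib.C
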